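/-
Coset space `SL(2, ℤ) ⧸ Γ₀(N)`: the coset criterion, the (projective line) description and
the action of the central element `-1`.

Convention: the coset of `g` corresponds to the point `(g 0 0 : g 1 0)` (first column) of
`P¹(ℤ/N)`; the right coset `Γ₀(N) g` corresponds to `mk N g⁻¹`.
-/
import Mathlib.NumberTheory.ModularForms.CongruenceSubgroups
import Mathlib.RingTheory.Int.Basic

set_option autoImplicit false

namespace Fermat.Agent.Gamma0

open Matrix Matrix.SpecialLinearGroup CongruenceSubgroup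
open scoped MatrixGroups

/-- The coset space `SL(2, ℤ) ⧸ Γ₀(N)`. -/
abbrev Coset (N : ℕ) : Type := SL(2, ℤ) ⧸ Gamma0 N

/-- The coset `g Γ₀(N)`. -/
abbrev mk (N : ℕ) (g : SL(2, ℤ)) : Coset N := QuotientGroup.mk g

variable {N : ℕ}

theorem mk_surjective : Function.Surjective (mk N) := QuotientGroup.mk_surjective

theorem mk_eq_mk_iff {g g' : SL(2, ℤ)} :
    mk N g = mk N g' ↔ (N : ℤ) ∣ g 0 0 * g' 1 0 - g' 0 0 * g 1 0 := by
  rw [QuotientGroup.eq, Gamma0_mem, SL2_inv_expl, ZMod.intCast_zmod_eq_zero_iff_dvd]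
  simp [Matrix.mul_apply, Fin.sum_univ_two]
  ring_nf

/-- Right cosets: `Γ₀(N) g = Γ₀(N) g'` iff the bottom rows are proportional mod `N`. -/
theorem mk_inv_eq_mk_inv_iff {g g' : SL(2, ℤ)} :
    mk N g⁻¹ = mk N g'⁻¹ ↔ (N : ℤ) ∣ g 1 0 * g' 1 1 - g' 1 0 * g 1 1 := by
  rw [mk_eq_mk_iff, SL2_inv_expl, SL2_inv_expl]
  simp
  ring_nf

theorem mk_neg (g : SL(2, ℤ)) : mk N (-g) = mk N g := by
  rw [mk_eq_mk_iff]
  simp

theorem neg_one_smul (q : Coset N) : (-1 : SL(2, ℤ)) • q = q := by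
  obtain ⟨g, rfl⟩ := mk_surjective q
  rw [MulAction.Quotient.smul_coe, smul_eq_mul, neg_one_mul]
  exact mk_neg g

theorem neg_smul (g : SL(2, ℤ)) (q : Coset N) : (-g) • q = g • q := by
  rw [← neg_one_mul g, mul_smul, neg_one_smul]

/-- `gcd(c, N)` for the bottom left entry `c`, an invariant of the coset and of its `T`-orbit. -/
def level (N : ℕ) (g : SL(2, ℤ)) : ℕ := Nat.gcd (g 1 0).natAbs N

theorem level_dvd (g : SL(2, ℤ)) : level N g ∣ N := Nat.gcd_dvd_right _ _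

theorem level_eq_of_mk_eq {g g' : SL(2, ℤ)} (h : mk N g = mk N g') :
    level N g = level N g' := by
  have key : ∀ a b : SL(2, ℤ), mk N a = mk N b → level N a ∣ level N b := by
    intro a b hab
    rw [mk_eq_mk_iff] at hab
    have hd : (level N a : ℤ) ∣ a 1 0 := Int.natCast_dvd.mpr (Nat.gcd_dvd_left _ _)
    have hN : (level N a : ℤ) ∣ (N : ℤ) := Int.natCast_dvd_natCast.mpr (level_dvd a)
    have h1 : (level N a : ℤ) ∣ a 0 0 * b 1 0 :=
      (dvd_sub_left (hd.mul_left _)).mp (hN.trans hab)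
    have hc : IsCoprime (level N a : ℤ) (a 0 0) :=
      (isCoprime_col a 0).symm.of_isCoprime_of_dvd_left hd
    exact Nat.dvd_gcd (Int.natCast_dvd.mp (hc.dvd_of_dvd_mul_left h1)) (level_dvd a)
  exact Nat.dvd_antisymm (key g g' h) (key g' g h.symm)

/-- An integer prime to `N` modulo `m` lifts to one prime to `N`. -/
theorem exists_add_mul_isCoprime [NeZero N] {x m : ℤ}
    (h : ∀ p : ℕ, p.Prime → p ∣ N → (p : ℤ) ∣ m → ¬ (p : ℤ) ∣ x) :
    ∃ k : ℤ, IsCoprime (x + k * m) (N : ℤ) := by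
  classical
  let ps : Finset ℕ := N.primeFactors.filter fun p => ¬ (p : ℤ) ∣ x
  refine ⟨∏ p ∈ ps, (p : ℤ), ?_⟩
  rw [Int.isCoprime_iff_gcd_eq_one, Int.gcd_def, Int.natAbs_natCast]
  refine Nat.coprime_of_dvd fun p pp hp hpN => ?_
  rw [← Int.natCast_dvd] at hp
  have hpp : Prime (p : ℤ) := Int.prime_iff_natAbs_prime.2 (by simpa using pp)
  by_cases hpx : (p : ℤ) ∣ x
  · rcases hpp.dvd_mul.mp ((dvd_add_right hpx).mp hp) with h' | h'
    · obtain ⟨q, hq, hq'⟩ := (hpp.dvd_finsetProd_iff _).mp h'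
      rw [Finset.mem_filter, Nat.mem_primeFactors] at hq
      have : p = q := (Nat.prime_dvd_prime_iff_eq pp hq.1.1).mp (Int.natCast_dvd_natCast.mp hq')
      exact hq.2 (this ▸ hpx)
    · exact h p pp hpN h' hpx
  · have hmem : p ∈ ps :=
      Finset.mem_filter.mpr ⟨Nat.mem_primeFactors.mpr ⟨pp, hpN, NeZero.ne N⟩, hpx⟩
    have hd : (p : ℤ) ∣ (∏ q ∈ ps, (q : ℤ)) * m :=
      Dvd.dvd.mul_right (Finset.dvd_prod_of_mem _ hmem) _
    exact hpx ((dvd_add_left hd).mp hp)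

/-- Every point `(x : y)` of `P¹(ℤ/N)` is the first column of a matrix in `SL(2, ℤ)`. -/
theorem exists_mk_of_point [NeZero N] {x y : ℤ}
    (h : ∀ p : ℕ, p.Prime → p ∣ N → (p : ℤ) ∣ x → ¬ (p : ℤ) ∣ y) :
    ∃ g : SL(2, ℤ), (N : ℤ) ∣ g 0 0 * y - x * g 1 0 := by
  obtain ⟨y', hy', hy0⟩ : ∃ y' : ℤ, (N : ℤ) ∣ y' - y ∧ y' ≠ 0 := by
    by_cases hy : y = 0
    · exact ⟨N, by simp [hy], by exact_mod_cast NeZero.ne N⟩
    · exact ⟨y, by simp, hy⟩
  have : NeZero y'.natAbs := ⟨by simpa using hy0⟩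
  obtain ⟨k, hk⟩ := exists_add_mul_isCoprime (N := y'.natAbs) (x := x) (m := (N : ℤ))
    (fun p pp hp hpN hpx => h p pp (Int.natCast_dvd_natCast.mp hpN) hpx
      ((dvd_sub_right (Int.natCast_dvd.mpr hp)).mp (hpN.trans hy')))
  have hk' : IsCoprime (x + k * (N : ℤ)) y' := by
    rw [Int.isCoprime_iff_gcd_eq_one, Int.gcd_def] at hk ⊢
    simpa [Int.natAbs_abs] using hk
  obtain ⟨g, hg0, hg1⟩ := hk'.exists_SL2_col 0
  refine ⟨g, ?_⟩
  rw [hg0, hg1]
  have : (x + k * (N : ℤ)) * y - x * y' = (N : ℤ) * (k * y) - x * (y' - y) := by ring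
  rw [this]
  exact dvd_sub (Dvd.intro _ rfl) (hy'.mul_left _)

end Fermat.Agent.Gamma0
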