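/-
Orbits of a single group element on a finite set: sizes and counting.
-/
import Mathlib.Data.ZMod.QuotientGroup
import Mathlib.GroupTheory.GroupAction.Basic
import Mathlib.SetTheory.Cardinal.Finite
import Mathlib.Algebra.BigOperators.Ring.Finset

set_option autoImplicit false

namespace Fermat.Agent.Gamma0

open MulAction Function

variable {G α : Type*} [Group G] [MulAction G α]

theorem card_orbit_zpowers (σ : G) (x : α) :
    Nat.card (orbit (Subgroup.zpowers σ) x) = minimalPeriod (σ • ·) x := by
  rw [Nat.card_congr (MulAction.orbitZPowersEquiv σ x), Nat.card_zmod]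

/-- The size of a finite `G`-set is the sum of the sizes of its orbits. -/
theorem card_eq_sum_card_orbits [Finite α] {ι : Type*} [Fintype ι] (x : ι → α)
    (hx : Bijective fun i => (Quotient.mk'' (x i) : orbitRel.Quotient G α)) :
    Nat.card α = ∑ i, Nat.card (orbit G (x i)) := by
  classical
  haveI : Fintype (orbitRel.Quotient G α) := Fintype.ofBijective _ hx
  rw [Nat.card_congr (MulAction.selfEquivSigmaOrbits' G α), Nat.card_sigma,
    ← (Equiv.ofBijective _ hx).sum_comp fun ω : orbitRel.Quotient G α => Nat.card ω.orbit]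
  refine Finset.sum_congr rfl fun i _ => ?_
  simp [Equiv.ofBijective_apply, orbitRel.Quotient.orbit_mk]

/-- Orbit count for an element `σ` with `σ ^ n` acting trivially, `n` prime. -/
theorem prime_mul_card_orbits [Finite α] (σ : G) {n : ℕ} (hn : n.Prime)
    (hσ : ∀ x : α, σ ^ n • x = x) :
    n * Nat.card (orbitRel.Quotient (Subgroup.zpowers σ) α) =
      Nat.card α + (n - 1) * Nat.card {x : α // σ • x = x} := by
  classical
  let O := orbitRel.Quotient (Subgroup.zpowers σ) α
  haveI : Fintype O := Fintype.ofFinite _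
  have hcard : ∀ ω : O, Nat.card ω.orbit = 1 ∨ Nat.card ω.orbit = n := by
    intro ω
    induction ω using Quotient.inductionOn' with
    | h x =>
      rw [orbitRel.Quotient.orbit_mk, card_orbit_zpowers]
      refine (Nat.dvd_prime hn).mp (IsPeriodicPt.minimalPeriod_dvd ?_)
      change (σ • ·)^[n] x = x
      rw [smul_iterate]
      exact hσ x
  have hfix : Nat.card {x : α // σ • x = x} = Nat.card {ω : O // Nat.card ω.orbit = 1} := by
    refine Nat.card_congr (Equiv.ofBijective (fun x => ⟨Quotient.mk'' x.1, ?_⟩) ⟨?_, ?_⟩)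
    · rw [orbitRel.Quotient.orbit_mk, card_orbit_zpowers, minimalPeriod_eq_one_iff_isFixedPt]
      exact x.2
    · intro x y hxy
      have h : x.1 ∈ orbit (Subgroup.zpowers σ) y.1 :=
        Quotient.eq''.mp (congrArg Subtype.val hxy)
      obtain ⟨⟨g, j, rfl⟩, hj⟩ := h
      apply Subtype.ext
      rw [← hj]
      exact zpow_smul_eq_iff_minimalPeriod_dvd.mpr (by
        rw [minimalPeriod_eq_one_iff_isFixedPt.mpr y.2]; simp)
    · intro ω
      obtain ⟨ω, hω⟩ := ω
      induction ω using Quotient.inductionOn' with
      | h x =>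
        rw [orbitRel.Quotient.orbit_mk, card_orbit_zpowers,
          minimalPeriod_eq_one_iff_isFixedPt] at hω
        exact ⟨⟨x, hω⟩, rfl⟩
  have hsum : Nat.card α = ∑ ω : O, Nat.card ω.orbit := by
    rw [Nat.card_congr (MulAction.selfEquivSigmaOrbits' (Subgroup.zpowers σ) α), Nat.card_sigma]
  rw [hfix, hsum, Nat.card_eq_fintype_card, Nat.card_eq_fintype_card, Fintype.card_subtype,
    Finset.card_filter, Finset.mul_sum, ← Finset.sum_add_distrib,
    show Fintype.card O = ∑ _ω : O, 1 by simp, Finset.mul_sum]
  refine Finset.sum_congr rfl fun ω _ => ?_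
  have := hn.two_le
  rcases hcard ω with h | h
  · rw [h, if_pos rfl]; omega
  · rw [h, if_neg (by omega)]; simp

end Fermat.Agent.Gamma0
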