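/-
The arithmetic identity `∑_{d ∣ N} φ(g) (N / (d g)) = dedekindPsi N`, `g = gcd(d, N / d)`:
the sum of the cusp widths of `Γ₀(N)` is the index.
-/
import Fermat.Prelude.Def_ModularCurve_X0
import Mathlib.Data.Nat.Totient
import Mathlib.Data.Finset.NatDivisors
import Mathlib.Data.Nat.Factorization.Induction
import Mathlib.NumberTheory.Divisors

set_option autoImplicit false

namespace Fermat.Agent.Gamma0

open ModularCurve Finset

/-- A divisor sum of a multiplicative summand is multiplicative. -/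
theorem sum_divisors_coprime {F : ℕ → ℕ → ℕ} {m n : ℕ} (hmn : m.Coprime n)
    (hF : ∀ a ∈ m.divisors, ∀ b ∈ n.divisors, F (a * b) (m * n) = F a m * F b n) :
    ∑ d ∈ (m * n).divisors, F d (m * n) =
      (∑ a ∈ m.divisors, F a m) * ∑ b ∈ n.divisors, F b n := by
  rw [Nat.divisors_mul, Finset.mul_def, Finset.sum_image hmn.mul_injOn_divisors,
    Finset.sum_product, Finset.sum_mul_sum]
  exact Finset.sum_congr rfl fun a ha => Finset.sum_congr rfl fun b hb => hF a ha b hb

/-- The total width of the cusps with invariant `d`. -/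
def widthTerm (d N : ℕ) : ℕ :=
  Nat.totient (Nat.gcd d (N / d)) * (N / (d * Nat.gcd d (N / d)))

theorem mul_gcd_div_dvd {d N : ℕ} (h : d ∣ N) : d * Nat.gcd d (N / d) ∣ N := by
  have := mul_dvd_mul (dvd_refl d) (Nat.gcd_dvd_right d (N / d))
  rwa [Nat.mul_div_cancel' h] at this

theorem gcd_mul_coprime {a a' b b' : ℕ} (h : (a * a').Coprime (b * b')) :
    Nat.gcd (a * b) (a' * b') = Nat.gcd a a' * Nat.gcd b b' := by
  have hab' : a.Coprime b' :=
    h.of_dvd (dvd_mul_right a a') (dvd_mul_left b' b)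
  have hba' : b.Coprime a' :=
    (h.of_dvd (dvd_mul_left a' a) (dvd_mul_right b b')).symm
  have hcop : a'.Coprime b' := h.of_dvd (dvd_mul_left a' a) (dvd_mul_left b' b)
  rw [Nat.Coprime.gcd_mul _ hcop, Nat.Coprime.gcd_mul_right_cancel _ hba',
    Nat.Coprime.gcd_mul_left_cancel _ hab']

theorem widthTerm_mul {m n a b : ℕ} (hmn : m.Coprime n) (ha : a ∣ m) (hb : b ∣ n) :
    widthTerm (a * b) (m * n) = widthTerm a m * widthTerm b n := by
  have hg : Nat.gcd (a * b) (m / a * (n / b)) = Nat.gcd a (m / a) * Nat.gcd b (n / b) :=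
    gcd_mul_coprime (by rwa [Nat.mul_div_cancel' ha, Nat.mul_div_cancel' hb])
  have hcop : (Nat.gcd a (m / a)).Coprime (Nat.gcd b (n / b)) :=
    hmn.of_dvd ((Nat.gcd_dvd_left _ _).trans ha) ((Nat.gcd_dvd_left _ _).trans hb)
  rw [widthTerm, widthTerm, widthTerm, Nat.mul_div_mul_comm ha hb, hg, Nat.totient_mul hcop,
    mul_mul_mul_comm a b, Nat.mul_div_mul_comm (mul_gcd_div_dvd ha) (mul_gcd_div_dvd hb)]
  ring

theorem dedekindPsi_eq_sum (N : ℕ) :
    dedekindPsi N = ∑ d ∈ N.divisors, if Squarefree d then N / d else 0 := by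
  rw [dedekindPsi, Finset.sum_filter]

theorem dedekindPsi_mul {m n : ℕ} (hmn : m.Coprime n) :
    dedekindPsi (m * n) = dedekindPsi m * dedekindPsi n := by
  simp only [dedekindPsi_eq_sum]
  refine sum_divisors_coprime (F := fun d N => if Squarefree d then N / d else 0) hmn ?_
  intro a ha b hb
  have ha' := Nat.dvd_of_mem_divisors ha
  have hb' := Nat.dvd_of_mem_divisors hb
  simp only [Nat.squarefree_mul (hmn.of_dvd ha' hb'), Nat.mul_div_mul_comm ha' hb',
    ite_zero_mul_ite_zero]

theorem dedekindPsi_prime_pow {p : ℕ} (hp : p.Prime) (n : ℕ) :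
    dedekindPsi (p ^ (n + 1)) = p ^ (n + 1) + p ^ n := by
  rw [dedekindPsi_eq_sum, Nat.sum_divisors_prime_pow hp, Finset.sum_range_succ',
    Finset.sum_range_succ']
  have : ∀ i, ¬ Squarefree (p ^ (i + 1 + 1)) := fun i h => by
    rcases (Nat.squarefree_pow_iff hp.ne_one (by omega)).mp h with ⟨_, h'⟩
    omega
  simp only [this, if_false, Finset.sum_const_zero, zero_add, pow_one, pow_zero, squarefree_one,
    if_true, Nat.div_one, hp.squarefree]
  rw [pow_succ, Nat.mul_div_cancel _ hp.pos]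
  ring

theorem sum_widthTerm_prime_pow {p : ℕ} (hp : p.Prime) (n : ℕ) :
    ∑ d ∈ (p ^ (n + 1)).divisors, widthTerm d (p ^ (n + 1)) = p ^ (n + 1) + p ^ n := by
  have hmid : ∀ i, i < n → widthTerm (p ^ (i + 1)) (p ^ (n + 1)) = (p - 1) * p ^ (n - 1 - i) := by
    intro i hi
    rw [widthTerm, Nat.pow_div (by omega) hp.pos]
    obtain ⟨m, hm, hm'⟩ : ∃ m, m + 1 = min (i + 1) (n + 1 - (i + 1)) ∧
        Nat.gcd (p ^ (i + 1)) (p ^ (n + 1 - (i + 1))) = p ^ (m + 1) := by
      rcases le_total (i + 1) (n + 1 - (i + 1)) with h | h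
      · exact ⟨i, by omega, Nat.gcd_eq_left (pow_dvd_pow p h)⟩
      · exact ⟨n - i - 1, by omega,
          (Nat.gcd_eq_right (pow_dvd_pow p h)).trans (by congr 1; omega)⟩
    rw [hm', Nat.totient_prime_pow hp (by omega), ← pow_add, Nat.pow_div (by omega) hp.pos,
      show m + 1 - 1 = m by omega, mul_comm (p ^ m) (p - 1), mul_assoc, ← pow_add]
    congr 2
    omega
  have hgeom : ∀ k, (∑ j ∈ range k, (p - 1) * p ^ j) + 1 = p ^ k := by
    intro k
    induction k with
    | zero => simp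
    | succ k ih =>
      rw [Finset.sum_range_succ, add_right_comm, ih, pow_succ]
      obtain ⟨q, rfl⟩ : ∃ q, p = q + 1 := ⟨p - 1, (Nat.succ_pred_eq_of_pos hp.pos).symm⟩
      simp only [Nat.add_sub_cancel]
      ring
  rw [Nat.sum_divisors_prime_pow hp, Finset.sum_range_succ, Finset.sum_range_succ',
    Finset.sum_congr rfl fun i hi => hmid i (Finset.mem_range.mp hi),
    Finset.sum_range_reflect (fun j => (p - 1) * p ^ j) n]
  have h0 : widthTerm (p ^ 0) (p ^ (n + 1)) = p ^ (n + 1) := by simp [widthTerm]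
  have h1 : widthTerm (p ^ (n + 1)) (p ^ (n + 1)) = 1 := by
    simp [widthTerm, Nat.div_self (pow_pos hp.pos _)]
  rw [h0, h1, ← hgeom n]
  ring

/-- The sum of the cusp widths is the index. -/
theorem sum_widthTerm {N : ℕ} (hN : N ≠ 0) :
    ∑ d ∈ N.divisors, widthTerm d N = dedekindPsi N := by
  induction N using Nat.recOnPrimeCoprime with
  | zero => exact absurd rfl hN
  | prime_pow p n hp =>
    cases n with
    | zero => simp [widthTerm]
    | succ n => rw [sum_widthTerm_prime_pow hp, dedekindPsi_prime_pow hp]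
  | coprime m n hm hn hmn ihm ihn =>
    rw [sum_divisors_coprime hmn fun a ha b hb =>
        widthTerm_mul hmn (Nat.dvd_of_mem_divisors ha) (Nat.dvd_of_mem_divisors hb),
      ihm (by omega), ihn (by omega), dedekindPsi_mul hmn]

theorem dedekindPsi_ne_zero {N : ℕ} (hN : N ≠ 0) : dedekindPsi N ≠ 0 := by
  have h : N / 1 ≤ dedekindPsi N :=
    Finset.single_le_sum (f := fun d => N / d) (fun _ _ => Nat.zero_le _)
      (by simp [hN])
  simp only [Nat.div_one] at h
  omega

end Fermat.Agent.Gamma0
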