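/-
Cusps of `Γ₀(N)`: the `T`-orbits on `SL(2, ℤ) ⧸ Γ₀(N)`, their sizes (widths), their number
`cuspCount N`, and the index `dedekindPsi N`.  The orbit of `mk N g` is the cusp `g⁻¹ ∞`.
-/
import Fermat.Prelude.Def_ModularCurve_GenusNumerics
import Fermat.Agent.Gamma0.Basic
import Fermat.Agent.Gamma0.Orbits
import Fermat.Agent.Gamma0.PsiIdentity
import Mathlib.Data.ZMod.QuotientGroup
import Mathlib.Data.ZMod.Units
import Mathlib.FieldTheory.Finite.Basic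

set_option autoImplicit false

namespace Fermat.Agent.Gamma0

open Matrix Matrix.SpecialLinearGroup CongruenceSubgroup ModularCurve
open scoped MatrixGroups
open ModularGroup (S T)

variable {N : ℕ}

/-- The width `N / gcd(N, c²)` of the cusp `g⁻¹ ∞`. -/
def width (N : ℕ) (g : SL(2, ℤ)) : ℕ := N / Nat.gcd N ((g 1 0).natAbs ^ 2)

theorem width_pos [NeZero N] (g : SL(2, ℤ)) : 0 < width N g :=
  Nat.div_pos (Nat.le_of_dvd (NeZero.pos N) (Nat.gcd_dvd_left _ _))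
    (Nat.gcd_pos_of_pos_left _ (NeZero.pos N))

theorem gcd_sq_eq (c n : ℕ) :
    Nat.gcd n (c ^ 2) = Nat.gcd c n * Nat.gcd (Nat.gcd c n) (n / Nat.gcd c n) := by
  rcases Nat.eq_zero_or_pos (Nat.gcd c n) with h | h
  · obtain ⟨rfl, rfl⟩ := Nat.gcd_eq_zero_iff.mp h
    simp
  · obtain ⟨c₁, n₁, hcop, hc, hn⟩ := Nat.exists_coprime c n
    generalize Nat.gcd c n = d at h hc hn ⊢
    subst hc hn
    rw [Nat.mul_div_cancel _ h, show (c₁ * d) ^ 2 = c₁ ^ 2 * d * d by ring, Nat.gcd_mul_right,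
      Nat.Coprime.gcd_mul_left_cancel_right _ (hcop.pow_left 2), mul_comm, Nat.gcd_comm]

theorem width_eq (g : SL(2, ℤ)) :
    width N g = N / (level N g * Nat.gcd (level N g) (N / level N g)) := by
  rw [width, gcd_sq_eq, level]

theorem T_zpow_mul_apply (h : ℤ) (g : SL(2, ℤ)) :
    (T ^ h * g) 0 0 = g 0 0 + h * g 1 0 ∧ (T ^ h * g) 1 0 = g 1 0 := by
  simp [ModularGroup.coe_T_zpow, Matrix.mul_apply, Fin.sum_univ_two]

theorem dvd_mul_iff_div_gcd_dvd {n : ℕ} (hn : n ≠ 0) (a b : ℕ) :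
    n ∣ a * b ↔ n / Nat.gcd n b ∣ a := by
  rw [Nat.div_dvd_iff_dvd_mul (Nat.gcd_dvd_left _ _) (Nat.gcd_pos_of_pos_left _ (by omega)),
    mul_comm (Nat.gcd n b) a]
  exact (dvd_mul_gcd_iff_dvd_mul (m := a) (n := b) (k := n)).symm

theorem T_zpow_smul_mk_eq_iff [NeZero N] {g : SL(2, ℤ)} {h : ℤ} :
    T ^ h • mk N g = mk N g ↔ (width N g : ℤ) ∣ h := by
  rw [MulAction.Quotient.smul_coe, smul_eq_mul, mk_eq_mk_iff, (T_zpow_mul_apply h g).1,
    (T_zpow_mul_apply h g).2, width,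
    show (g 0 0 + h * g 1 0) * g 1 0 - g 0 0 * g 1 0 = h * g 1 0 ^ 2 by ring,
    Int.natCast_dvd, Int.natCast_dvd, Int.natAbs_mul, Int.natAbs_pow]
  exact dvd_mul_iff_div_gcd_dvd (NeZero.ne N) _ _

theorem conj_mem_iff {g x : SL(2, ℤ)} :
    g⁻¹ * x * g ∈ Gamma0 N ↔ x • mk N g = mk N g := by
  rw [MulAction.Quotient.smul_coe, smul_eq_mul, eq_comm, QuotientGroup.eq, mul_assoc]

theorem conj_T_zpow_mem_iff [NeZero N] {g : SL(2, ℤ)} {h : ℤ} :
    g⁻¹ * T ^ h * g ∈ Gamma0 N ↔ (width N g : ℤ) ∣ h := by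
  rw [conj_mem_iff, T_zpow_smul_mk_eq_iff]

theorem conj_neg_T_zpow_mem_iff [NeZero N] {g : SL(2, ℤ)} {h : ℤ} :
    g⁻¹ * (-T ^ h) * g ∈ Gamma0 N ↔ (width N g : ℤ) ∣ h := by
  rw [conj_mem_iff, neg_smul, T_zpow_smul_mk_eq_iff]

theorem minimalPeriod_T_smul [NeZero N] (g : SL(2, ℤ)) :
    Function.minimalPeriod (T • ·) (mk N g) = width N g := by
  refine Nat.dvd_antisymm ?_ ?_
  · rw [← Int.natCast_dvd_natCast]
    exact MulAction.zpow_smul_eq_iff_minimalPeriod_dvd.mp (T_zpow_smul_mk_eq_iff.mpr dvd_rfl)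
  · rw [← Int.natCast_dvd_natCast]
    exact T_zpow_smul_mk_eq_iff.mp (MulAction.zpow_smul_eq_iff_minimalPeriod_dvd.mpr dvd_rfl)

theorem card_orbit_T [NeZero N] (g : SL(2, ℤ)) :
    Nat.card (MulAction.orbit (Subgroup.zpowers T) (mk N g)) = width N g := by
  exact (card_orbit_zpowers (G := SL(2, ℤ)) T (mk N g)).trans (minimalPeriod_T_smul g)

theorem level_T_zpow_mul (h : ℤ) (g : SL(2, ℤ)) : level N (T ^ h * g) = level N g := by
  rw [level, level, (T_zpow_mul_apply h g).2]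

/-- Criterion for two cosets to lie in the same `T`-orbit. -/
theorem exists_T_zpow_smul_mk_eq_iff [NeZero N] {g g' : SL(2, ℤ)} :
    (∃ h : ℤ, T ^ h • mk N g = mk N g') ↔
      level N g = level N g' ∧
        ((Nat.gcd (level N g) (N / level N g) : ℕ) : ℤ) ∣
          g 0 0 * (g' 1 0 / level N g) - g' 0 0 * (g 1 0 / level N g) := by
  constructor
  · rintro ⟨h, hh⟩
    rw [MulAction.Quotient.smul_coe, smul_eq_mul] at hh
    have hl : level N g = level N g' := by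
      rw [← level_T_zpow_mul h g]; exact level_eq_of_mk_eq hh
    refine ⟨hl, ?_⟩
    rw [mk_eq_mk_iff, (T_zpow_mul_apply h g).1, (T_zpow_mul_apply h g).2] at hh
    set d := level N g with hd
    have hdN : d ∣ N := level_dvd g
    have hd0 : (d : ℤ) ≠ 0 :=
      Int.natCast_ne_zero.mpr (ne_zero_of_dvd_ne_zero (NeZero.ne N) hdN)
    obtain ⟨c₁, hc₁⟩ : (d : ℤ) ∣ g 1 0 := Int.natCast_dvd.mpr (Nat.gcd_dvd_left _ _)
    obtain ⟨c₂, hc₂⟩ : (d : ℤ) ∣ g' 1 0 := by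
      rw [hl]; exact Int.natCast_dvd.mpr (Nat.gcd_dvd_left _ _)
    rw [hc₁, hc₂, Int.mul_ediv_cancel_left _ hd0, Int.mul_ediv_cancel_left _ hd0]
    rw [hc₁, hc₂] at hh
    have hN : (N : ℤ) = (d : ℤ) * (N / d : ℕ) := by
      rw [← Nat.cast_mul, Nat.mul_div_cancel' hdN]
    generalize (N / d : ℕ) = e at hN ⊢
    obtain ⟨t, ht⟩ := hh
    have key : g 0 0 * c₂ - g' 0 0 * c₁ = (e : ℤ) * t - (d : ℤ) * (h * c₁ * c₂) := by
      apply mul_left_cancel₀ hd0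
      linear_combination ht + t * hN
    rw [key]
    exact dvd_sub (Dvd.dvd.mul_right (Int.natCast_dvd_natCast.mpr (Nat.gcd_dvd_right _ _)) _)
      (Dvd.dvd.mul_right (Int.natCast_dvd_natCast.mpr (Nat.gcd_dvd_left _ _)) _)
  · rintro ⟨hl, hg⟩
    simp only [MulAction.Quotient.smul_coe, smul_eq_mul, mk_eq_mk_iff,
      fun h => (T_zpow_mul_apply h g).1, fun h => (T_zpow_mul_apply h g).2]
    set d := level N g with hd
    have hdN : d ∣ N := level_dvd g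
    have hdp : 0 < d := Nat.pos_of_dvd_of_pos hdN (NeZero.pos N)
    have hd0 : (d : ℤ) ≠ 0 := Int.natCast_ne_zero.mpr hdp.ne'
    obtain ⟨c₁, hc₁⟩ : (d : ℤ) ∣ g 1 0 := Int.natCast_dvd.mpr (Nat.gcd_dvd_left _ _)
    obtain ⟨c₂, hc₂⟩ : (d : ℤ) ∣ g' 1 0 := by
      rw [hl]; exact Int.natCast_dvd.mpr (Nat.gcd_dvd_left _ _)
    have hcop : ∀ c : ℤ, ∀ x : SL(2, ℤ), x 1 0 = (d : ℤ) * c → level N x = d →
        IsCoprime c ((N / d : ℕ) : ℤ) := by
      intro c x hx hlx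
      have h1 : Nat.Coprime ((x 1 0).natAbs / d) (N / d) := by
        rw [← hlx]
        exact Nat.coprime_div_gcd_div_gcd (by rw [← level, hlx]; exact hdp)
      rw [hx, Int.natAbs_mul, Int.natAbs_natCast, Nat.mul_div_cancel_left _ hdp] at h1
      rw [Int.isCoprime_iff_gcd_eq_one, Int.gcd_def, Int.natAbs_natCast]
      exact h1
    have hC := (hcop c₁ g hc₁ rfl).mul_left (hcop c₂ g' hc₂ hl.symm)
    rw [hc₁, hc₂, Int.mul_ediv_cancel_left _ hd0, Int.mul_ediv_cancel_left _ hd0] at hg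
    rw [hc₁, hc₂]
    have hN : (N : ℤ) = (d : ℤ) * (N / d : ℕ) := by
      rw [← Nat.cast_mul, Nat.mul_div_cancel' hdN]
    generalize (N / d : ℕ) = e at hN hg hC
    obtain ⟨t, ht⟩ := hg
    obtain ⟨w, z, hwz⟩ := hC
    have hbez := Nat.gcd_eq_gcd_ab d e
    refine ⟨-(t * Nat.gcdA d e * w), ⟨t * Nat.gcdB d e + t * Nat.gcdA d e * (d : ℤ) * z, ?_⟩⟩
    linear_combination (-(t * Nat.gcdB d e + t * Nat.gcdA d e * (d : ℤ) * z)) * hN
      + (d : ℤ) * ht + (d : ℤ) * t * hbez - (d : ℤ) ^ 2 * t * Nat.gcdA d e * hwz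

/-- Index set of the cusps of `Γ₀(N)`: `d ∣ N` and a unit modulo `gcd(d, N/d)`. -/
abbrev CuspIndex (N : ℕ) : Type :=
  Σ d : N.divisors, (ZMod (Nat.gcd d.1 (N / d.1)))ˣ

theorem neZero_gcd [NeZero N] (d : N.divisors) : NeZero (Nat.gcd d.1 (N / d.1)) :=
  ⟨fun h => ne_zero_of_dvd_ne_zero (NeZero.ne N) (Nat.dvd_of_mem_divisors d.2) (Nat.gcd_eq_zero_iff.mp h).1⟩

/-- A representative of a cusp: first column `(a, d)` with `a` in the given unit class. -/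
theorem exists_cuspRep [NeZero N] (i : CuspIndex N) :
    ∃ g : SL(2, ℤ), g 1 0 = (i.1.1 : ℤ) ∧
      ((g 0 0 : ℤ) : ZMod (Nat.gcd i.1.1 (N / i.1.1))) = i.2 := by
  obtain ⟨⟨d, hd⟩, u⟩ := i
  dsimp only
  haveI : NeZero d := ⟨ne_zero_of_dvd_ne_zero (NeZero.ne N) (Nat.dvd_of_mem_divisors hd)⟩
  haveI : NeZero (Nat.gcd d (N / d)) := neZero_gcd ⟨d, hd⟩
  obtain ⟨k, hk⟩ := exists_add_mul_isCoprime (N := d)
    (x := ((u : ZMod (Nat.gcd d (N / d))).val : ℤ)) (m := (Nat.gcd d (N / d) : ℤ))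
    (fun p pp _ hpg hpu => Nat.Prime.not_coprime_iff_dvd.mpr
      ⟨p, pp, Int.natCast_dvd_natCast.mp hpu, Int.natCast_dvd_natCast.mp hpg⟩
      (ZMod.val_coe_unit_coprime u))
  obtain ⟨g, hg0, hg1⟩ := hk.exists_SL2_col 0
  exact ⟨g, hg1, by rw [hg0]; simp⟩

/-- A representative of a cusp. -/
noncomputable def cuspRep [NeZero N] (i : CuspIndex N) : SL(2, ℤ) :=
  (exists_cuspRep i).choose

theorem cuspRep_one_zero [NeZero N] (i : CuspIndex N) : cuspRep i 1 0 = (i.1.1 : ℤ) :=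
  (exists_cuspRep i).choose_spec.1

theorem cuspRep_zero_zero [NeZero N] (i : CuspIndex N) :
    ((cuspRep i 0 0 : ℤ) : ZMod (Nat.gcd i.1.1 (N / i.1.1))) = i.2 :=
  (exists_cuspRep i).choose_spec.2

theorem level_cuspRep [NeZero N] (i : CuspIndex N) : level N (cuspRep i) = i.1.1 := by
  rw [level, cuspRep_one_zero, Int.natAbs_natCast]
  exact Nat.gcd_eq_left (Nat.dvd_of_mem_divisors i.1.2)

/-- The set of cusps: `T`-orbits of cosets. -/
abbrev CuspOrbit (N : ℕ) : Type :=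
  MulAction.orbitRel.Quotient (Subgroup.zpowers T) (Coset N)

theorem cuspOrbit_eq_iff {x y : Coset N} :
    (Quotient.mk'' x : CuspOrbit N) = Quotient.mk'' y ↔ ∃ h : ℤ, T ^ h • y = x := by
  rw [Quotient.eq'']
  constructor
  · rintro ⟨⟨_, h, rfl⟩, e⟩
    exact ⟨h, e⟩
  · rintro ⟨h, e⟩
    exact ⟨⟨_, h, rfl⟩, e⟩

theorem cuspRep_bijective [NeZero N] :
    Function.Bijective
      (fun i : CuspIndex N => (Quotient.mk'' (mk N (cuspRep i)) : CuspOrbit N)) := by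
  constructor
  · intro i j hij
    rw [eq_comm] at hij
    obtain ⟨hl, hg⟩ := exists_T_zpow_smul_mk_eq_iff.mp (cuspOrbit_eq_iff.mp hij)
    rw [level_cuspRep, level_cuspRep] at hl
    rw [level_cuspRep, cuspRep_one_zero, cuspRep_one_zero, hl] at hg
    have hj0 : ((j.1.1 : ℕ) : ℤ) ≠ 0 := Int.natCast_ne_zero.mpr
      (ne_zero_of_dvd_ne_zero (NeZero.ne N) (Nat.dvd_of_mem_divisors j.1.2))
    rw [Int.ediv_self hj0, mul_one, mul_one, ← ZMod.intCast_zmod_eq_zero_iff_dvd] at hg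
    obtain ⟨⟨d, hd⟩, u⟩ := i
    obtain ⟨⟨d', hd'⟩, u'⟩ := j
    dsimp only at hl hg
    subst hl
    have h1 := cuspRep_zero_zero (N := N) ⟨⟨d, hd⟩, u⟩
    have h2 := cuspRep_zero_zero (N := N) ⟨⟨d, hd⟩, u'⟩
    dsimp only at h1 h2
    push_cast at hg
    rw [h1, h2, sub_eq_zero] at hg
    rw [Units.ext hg]
  · intro ω
    induction ω using Quotient.inductionOn' with
    | h q =>
      obtain ⟨g, rfl⟩ := mk_surjective q
      set d := level N g with hd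
      have hdN : d ∣ N := level_dvd g
      have hdp : 0 < d := Nat.pos_of_dvd_of_pos hdN (NeZero.pos N)
      have hd0 : (d : ℤ) ≠ 0 := Int.natCast_ne_zero.mpr hdp.ne'
      obtain ⟨c₁, hc₁⟩ : (d : ℤ) ∣ g 1 0 := Int.natCast_dvd.mpr (Nat.gcd_dvd_left _ _)
      have hgd : ((Nat.gcd d (N / d) : ℕ) : ℤ) ∣ (d : ℤ) :=
        Int.natCast_dvd_natCast.mpr (Nat.gcd_dvd_left _ _)
      have hge : ((Nat.gcd d (N / d) : ℕ) : ℤ) ∣ ((N / d : ℕ) : ℤ) :=
        Int.natCast_dvd_natCast.mpr (Nat.gcd_dvd_right _ _)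
      have ha : IsCoprime (g 0 0) ((Nat.gcd d (N / d) : ℕ) : ℤ) :=
        (isCoprime_col g 0).of_isCoprime_of_dvd_right (hgd.trans ⟨c₁, hc₁⟩)
      have hcop : IsCoprime c₁ ((N / d : ℕ) : ℤ) := by
        have h1 : Nat.Coprime ((g 1 0).natAbs / d) (N / d) :=
          Nat.coprime_div_gcd_div_gcd hdp
        rw [hc₁, Int.natAbs_mul, Int.natAbs_natCast, Nat.mul_div_cancel_left _ hdp] at h1
        rw [Int.isCoprime_iff_gcd_eq_one, Int.gcd_def, Int.natAbs_natCast]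
        exact h1
      have hc : IsCoprime c₁ ((Nat.gcd d (N / d) : ℕ) : ℤ) := hcop.of_isCoprime_of_dvd_right hge
      refine ⟨⟨⟨d, Nat.mem_divisors.mpr ⟨hdN, NeZero.ne N⟩⟩,
        ZMod.unitOfIsCoprime _ ha * (ZMod.unitOfIsCoprime _ hc)⁻¹⟩, ?_⟩
      refine cuspOrbit_eq_iff.mpr (exists_T_zpow_smul_mk_eq_iff.mpr
        ⟨by rw [level_cuspRep], ?_⟩)
      rw [← hd, cuspRep_one_zero, Int.ediv_self hd0, hc₁, Int.mul_ediv_cancel_left _ hd0,
        ← ZMod.intCast_zmod_eq_zero_iff_dvd]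
      push_cast
      rw [cuspRep_zero_zero, ← ZMod.coe_unitOfIsCoprime c₁ hc, ← Units.val_mul]
      simp

variable (N)

theorem card_cuspOrbit [NeZero N] : Nat.card (CuspOrbit N) = cuspCount N := by
  haveI : ∀ d : N.divisors, NeZero (Nat.gcd d.1 (N / d.1)) := neZero_gcd
  rw [← Nat.card_eq_of_bijective _ (cuspRep_bijective (N := N)), Nat.card_sigma, cuspCount,
    ← Finset.sum_coe_sort N.divisors]
  simp [Nat.card_eq_fintype_card, ZMod.card_units_eq_totient]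

theorem width_cuspRep [NeZero N] (i : CuspIndex N) :
    width N (cuspRep i) = N / (i.1.1 * Nat.gcd i.1.1 (N / i.1.1)) := by
  rw [width_eq, level_cuspRep]

theorem sum_cusp_widths [NeZero N] :
    ∑ d ∈ N.divisors, Nat.totient (Nat.gcd d (N / d)) * (N / (d * Nat.gcd d (N / d))) =
      dedekindPsi N :=
  sum_widthTerm (NeZero.ne N)

theorem card_coset [NeZero N] : Nat.card (Coset N) = dedekindPsi N := by
  haveI : ∀ d : N.divisors, NeZero (Nat.gcd d.1 (N / d.1)) := neZero_gcd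
  rw [card_eq_sum_card_orbits (fun i : CuspIndex N => mk N (cuspRep i)) cuspRep_bijective,
    ← sum_cusp_widths N, ← Finset.sum_coe_sort N.divisors, Fintype.sum_sigma]
  refine Finset.sum_congr rfl fun d _ => ?_
  simp only [card_orbit_T, width_cuspRep]
  simp [ZMod.card_units_eq_totient]

theorem index_Gamma0 [NeZero N] : (CongruenceSubgroup.Gamma0 N).index = dedekindPsi N := by
  rw [Subgroup.index_eq_card, card_coset]

theorem dedekindPsi_pos [NeZero N] : 0 < dedekindPsi N :=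
  Nat.pos_of_ne_zero (dedekindPsi_ne_zero (NeZero.ne N))

end Fermat.Agent.Gamma0
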