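/-
The standard representatives `!![a, b; 0, N / a]` (primitive, upper triangular, determinant `N`)
of the right cosets `SL(2, ℤ) \ SL(2, ℤ) !![N, 0; 0, 1] SL(2, ℤ)`, in bijection with
`SL(2, ℤ) ⧸ Γ₀(N)`: the coset `g Γ₀(N)` goes to the class of `!![N, 0; 0, 1] * g⁻¹`.
-/
import Fermat.Agent.Gamma0.Cusps

set_option autoImplicit false

namespace Fermat.Agent.Gamma0

open Matrix Matrix.SpecialLinearGroup CongruenceSubgroup ModularCurve
open scoped MatrixGroups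

variable {N : ℕ}

/-- The pairs `(a, b)` with `a ∣ N`, `b < N / a` and `gcd(a, b, N / a) = 1`. -/
def heckePairs (N : ℕ) : Finset (ℕ × ℕ) :=
  (N.divisors ×ˢ Finset.range N).filter
    fun t => t.2 < N / t.1 ∧ Nat.gcd (Nat.gcd t.1 t.2) (N / t.1) = 1

/-- The matrix `!![a, b; 0, N / a]`. -/
def heckeMat (N : ℕ) (t : ℕ × ℕ) : Matrix (Fin 2) (Fin 2) ℤ :=
  !![(t.1 : ℤ), (t.2 : ℤ); 0, ((N / t.1 : ℕ) : ℤ)]

/-- The matrix `!![N, 0; 0, 1]`. -/
def levelMat (N : ℕ) : Matrix (Fin 2) (Fin 2) ℤ := !![(N : ℤ), 0; 0, 1]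

theorem mem_heckePairs [NeZero N] {t : ℕ × ℕ} :
    t ∈ heckePairs N ↔
      t.1 ∣ N ∧ t.2 < N / t.1 ∧ Nat.gcd (Nat.gcd t.1 t.2) (N / t.1) = 1 := by
  simp only [heckePairs, Finset.mem_filter, Finset.mem_product, Nat.mem_divisors,
    Finset.mem_range]
  exact ⟨fun h => ⟨h.1.1.1, h.2⟩,
    fun h => ⟨⟨⟨h.1, NeZero.ne N⟩, h.2.1.trans_le (Nat.div_le_self _ _)⟩, h.2⟩⟩

theorem det_heckeMat [NeZero N] {t : ℕ × ℕ} (ht : t ∈ heckePairs N) :
    (heckeMat N t).det = N := by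
  rw [heckeMat, Matrix.det_fin_two_of, mul_zero, sub_zero, ← Nat.cast_mul,
    Nat.mul_div_cancel' (mem_heckePairs.mp ht).1]

/-- Reduced upper triangular matrices in the same left `SL(2, ℤ)`-class are equal. -/
theorem heckeMat_injective [NeZero N] {t t' : ℕ × ℕ} (ht : t ∈ heckePairs N)
    (ht' : t' ∈ heckePairs N) {γ : SL(2, ℤ)}
    (h : (γ : Matrix (Fin 2) (Fin 2) ℤ) * heckeMat N t = heckeMat N t') : t = t' := by
  obtain ⟨ha, hb, -⟩ := mem_heckePairs.mp ht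
  obtain ⟨ha', hb', -⟩ := mem_heckePairs.mp ht'
  have hapos : (0 : ℤ) < t.1 := Int.natCast_pos.mpr (Nat.pos_of_dvd_of_pos ha (NeZero.pos N))
  have hapos' : (0 : ℤ) < t'.1 := Int.natCast_pos.mpr (Nat.pos_of_dvd_of_pos ha' (NeZero.pos N))
  have h00 : γ 0 0 * t.1 = t'.1 := by
    simpa [heckeMat, Matrix.mul_apply, Fin.sum_univ_two] using congr_fun₂ h 0 0
  have h10 : γ 1 0 * t.1 = 0 := by
    simpa [heckeMat, Matrix.mul_apply, Fin.sum_univ_two] using congr_fun₂ h 1 0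
  have h01 : γ 0 0 * t.2 + γ 0 1 * (N / t.1 : ℕ) = t'.2 := by
    simpa [heckeMat, Matrix.mul_apply, Fin.sum_univ_two] using congr_fun₂ h 0 1
  have hz : γ 1 0 = 0 := (mul_eq_zero.mp h10).resolve_right hapos.ne'
  have hdet : γ 0 0 * γ 1 1 = 1 := by
    have := γ.2
    rw [Matrix.det_fin_two] at this
    simpa [hz] using this
  have hx : γ 0 0 = 1 := by
    rcases Int.eq_one_or_neg_one_of_mul_eq_one hdet with h1 | h1
    · exact h1
    · rw [h1] at h00; omega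
  rw [hx, one_mul] at h00 h01
  have h1 : t.1 = t'.1 := by exact_mod_cast h00
  rw [← h1] at hb'
  refine Prod.ext h1 ?_
  have hy : (N / t.1 : ℕ) * γ 0 1 = (t'.2 : ℤ) - t.2 := by linarith
  have : (t'.2 : ℤ) - t.2 = 0 :=
    Int.eq_zero_of_abs_lt_dvd ⟨γ 0 1, hy.symm⟩ (abs_lt.mpr ⟨by omega, by omega⟩)
  omega

/-- The left class of `!![N, 0; 0, 1] * x` only depends on the right coset `Γ₀(N) x`. -/
theorem levelMat_mul_Gamma0 {δ : SL(2, ℤ)} (hδ : δ ∈ Gamma0 N) : ∃ η : SL(2, ℤ),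
    levelMat N * (δ : Matrix (Fin 2) (Fin 2) ℤ) = (η : Matrix (Fin 2) (Fin 2) ℤ) * levelMat N := by
  rw [Gamma0_mem, ZMod.intCast_zmod_eq_zero_iff_dvd] at hδ
  obtain ⟨c, hc⟩ := hδ
  have hdet := δ.2
  rw [Matrix.det_fin_two, hc] at hdet
  refine ⟨⟨!![δ 0 0, (N : ℤ) * δ 0 1; c, δ 1 1],
    by rw [Matrix.det_fin_two_of]; linear_combination hdet⟩, ?_⟩
  ext i j
  fin_cases i <;> fin_cases j <;>
    simp [levelMat, Matrix.mul_apply, Fin.sum_univ_two, hc, mul_comm]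

theorem exists_reduction [NeZero N] (x : SL(2, ℤ)) : ∃ t ∈ heckePairs N, ∃ γ : SL(2, ℤ),
    levelMat N * (x : Matrix (Fin 2) (Fin 2) ℤ) =
      (γ : Matrix (Fin 2) (Fin 2) ℤ) * heckeMat N t := by
  let a : ℕ := Nat.gcd (x 1 0).natAbs N
  have haN : a ∣ N := Nat.gcd_dvd_right _ _
  have hap : 0 < a := Nat.pos_of_dvd_of_pos haN (NeZero.pos N)
  let e : ℕ := N / a
  have hep : 0 < e := Nat.div_pos (Nat.le_of_dvd (NeZero.pos N) haN) hap
  have hN : (N : ℤ) = (a : ℤ) * e := by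
    rw [← Nat.cast_mul, Nat.mul_div_cancel' haN]
  obtain ⟨c₁, hc₁⟩ : (a : ℤ) ∣ x 1 0 := Int.natCast_dvd.mpr (Nat.gcd_dvd_left _ _)
  have hce : IsCoprime c₁ (e : ℤ) := by
    have h1 : Nat.Coprime ((x 1 0).natAbs / a) e := Nat.coprime_div_gcd_div_gcd hap
    rw [hc₁, Int.natAbs_mul, Int.natAbs_natCast, Nat.mul_div_cancel_left _ hap] at h1
    rw [Int.isCoprime_iff_gcd_eq_one, Int.gcd_def, Int.natAbs_natCast]
    exact h1
  have hcp : IsCoprime c₁ (x 0 0) :=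
    (isCoprime_col x 0).symm.of_isCoprime_of_dvd_left ⟨a, by rw [hc₁, mul_comm]⟩
  obtain ⟨v, u, huv⟩ := hce.mul_right hcp
  let B : ℤ := u * N * x 0 1 + v * x 1 1
  have hb0 : 0 ≤ B % e := Int.emod_nonneg _ (by omega)
  have hb : ((B % e).toNat : ℤ) = B % e := Int.toNat_of_nonneg hb0
  have hble : (B % e).toNat < e := by
    have : B % e < e := Int.emod_lt_of_pos _ (by omega)
    omega
  have hB : B % e + e * (B / e) = B := Int.emod_add_mul_ediv B e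
  have hdet := x.2
  rw [Matrix.det_fin_two, hc₁] at hdet
  have hMat : heckeMat N (a, (B % e).toNat) = !![(a : ℤ), B % e; 0, (e : ℤ)] := by
    change !![(a : ℤ), ((B % e).toNat : ℤ); 0, (e : ℤ)] = _
    rw [hb]
  let γ : SL(2, ℤ) := ⟨!![(e : ℤ) * x 0 0, (e : ℤ) * x 0 0 * (B / e) - v;
      c₁, c₁ * (B / e) + u],
    by rw [Matrix.det_fin_two_of]; linear_combination huv⟩
  have heq : levelMat N * (x : Matrix (Fin 2) (Fin 2) ℤ) =
      (γ : Matrix (Fin 2) (Fin 2) ℤ) * heckeMat N (a, (B % e).toNat) := by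
    rw [hMat]
    ext i j
    fin_cases i <;> fin_cases j <;>
      simp [levelMat, γ, Matrix.mul_apply, Fin.sum_univ_two]
    · linear_combination x 0 0 * hN
    · linear_combination (norm := (simp only [B]; ring))
        -((e : ℤ) * x 0 0) * hB - (e : ℤ) * v * hdet - (N : ℤ) * x 0 1 * huv
          + v * c₁ * x 0 1 * hN
    · linear_combination hc₁
    · linear_combination (norm := (simp only [B]; ring))
        -c₁ * hB + u * (e : ℤ) * hdet - x 1 1 * huv - u * c₁ * x 0 1 * hN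
  refine ⟨(a, (B % e).toNat), mem_heckePairs.mpr ⟨haN, hble, ?_⟩, γ, heq⟩
  refine Nat.eq_one_iff_not_exists_prime_dvd.mpr fun p pp hp => ?_
  have hpa : (p : ℤ) ∣ (a : ℤ) :=
    Int.natCast_dvd_natCast.mpr (hp.trans ((Nat.gcd_dvd_left _ _).trans (Nat.gcd_dvd_left _ _)))
  have hpb : (p : ℤ) ∣ B % e := by
    rw [← hb]
    exact Int.natCast_dvd_natCast.mpr
      (hp.trans ((Nat.gcd_dvd_left _ _).trans (Nat.gcd_dvd_right _ _)))
  have hpe : (p : ℤ) ∣ (e : ℤ) := Int.natCast_dvd_natCast.mpr (hp.trans (Nat.gcd_dvd_right _ _))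
  rw [hMat] at heq
  have h10 : x 1 0 = γ 1 0 * a := by
    simpa [levelMat, Matrix.mul_apply, Fin.sum_univ_two] using congr_fun₂ heq 1 0
  have h11 : x 1 1 = γ 1 0 * (B % e) + γ 1 1 * e := by
    simpa [levelMat, Matrix.mul_apply, Fin.sum_univ_two] using congr_fun₂ heq 1 1
  exact (Nat.prime_iff_prime_int.mp pp).not_isUnit ((isCoprime_row x 1).isUnit_of_dvd'
    (h10 ▸ hpa.mul_left _) (h11 ▸ dvd_add (hpb.mul_left _) (hpe.mul_left _)))

theorem reduction_unique [NeZero N] {t t' : ℕ × ℕ} (ht : t ∈ heckePairs N)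
    (ht' : t' ∈ heckePairs N) {γ γ' : SL(2, ℤ)}
    (h : (γ : Matrix (Fin 2) (Fin 2) ℤ) * heckeMat N t =
      (γ' : Matrix (Fin 2) (Fin 2) ℤ) * heckeMat N t') : t = t' := by
  refine heckeMat_injective ht ht' (γ := γ'⁻¹ * γ) ?_
  rw [coe_mul, Matrix.mul_assoc, h, ← Matrix.mul_assoc, ← coe_mul, inv_mul_cancel, coe_one,
    Matrix.one_mul]

theorem exists_heckeEquiv [NeZero N] :
    ∃ e : Coset N ≃ heckePairs N, ∀ g : SL(2, ℤ), ∃ γ : SL(2, ℤ),
      levelMat N * ((g⁻¹ : SL(2, ℤ)) : Matrix (Fin 2) (Fin 2) ℤ) =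
        (γ : Matrix (Fin 2) (Fin 2) ℤ) * heckeMat N (e (mk N g)).1 := by
  choose f hfmem γf hf using fun g : SL(2, ℤ) => exists_reduction (N := N) g⁻¹
  have hwd : ∀ g g' : SL(2, ℤ), mk N g = mk N g' → f g = f g' := fun g g' hgg => by
    rw [QuotientGroup.eq] at hgg
    obtain ⟨η, hη⟩ := levelMat_mul_Gamma0 hgg
    have h1 : levelMat N * ((g⁻¹ : SL(2, ℤ)) : Matrix (Fin 2) (Fin 2) ℤ) =
        (η : Matrix (Fin 2) (Fin 2) ℤ) *
          (levelMat N * ((g'⁻¹ : SL(2, ℤ)) : Matrix (Fin 2) (Fin 2) ℤ)) := by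
      rw [← Matrix.mul_assoc, ← hη, Matrix.mul_assoc, ← coe_mul]
      congr 2
      group
    rw [hf g, hf g', ← Matrix.mul_assoc, ← coe_mul] at h1
    exact reduction_unique (hfmem g) (hfmem g') h1
  let F : Coset N → heckePairs N := fun q => ⟨f q.out, hfmem q.out⟩
  have hFmk : ∀ g, (F (mk N g)).1 = f g := fun g => hwd _ g (Quotient.out_eq (mk N g))
  refine ⟨Equiv.ofBijective F ⟨fun q q' hqq => ?_, fun t => ?_⟩, fun g =>
    ⟨γf g, by rw [Equiv.ofBijective_apply, hFmk]; exact hf g⟩⟩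
  · obtain ⟨g, rfl⟩ := mk_surjective q
    obtain ⟨g', rfl⟩ := mk_surjective q'
    have hft : f g = f g' := by rw [← hFmk g, ← hFmk g', hqq]
    have h0 : (((γf g)⁻¹ : SL(2, ℤ)) : Matrix (Fin 2) (Fin 2) ℤ) *
        (levelMat N * ((g⁻¹ : SL(2, ℤ)) : Matrix (Fin 2) (Fin 2) ℤ)) = heckeMat N (f g) := by
      rw [hf g, ← Matrix.mul_assoc, ← coe_mul, inv_mul_cancel, coe_one, Matrix.one_mul]
    have h1 := hf g'
    rw [← hft, ← h0, ← Matrix.mul_assoc (γf g' : Matrix (Fin 2) (Fin 2) ℤ), ← coe_mul] at h1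
    have h2 : levelMat N * ((g'⁻¹ * g : SL(2, ℤ)) : Matrix (Fin 2) (Fin 2) ℤ) =
        ((γf g' * (γf g)⁻¹ : SL(2, ℤ)) : Matrix (Fin 2) (Fin 2) ℤ) * levelMat N := by
      rw [coe_mul g'⁻¹ g, ← Matrix.mul_assoc, h1]
      simp only [Matrix.mul_assoc]
      rw [← coe_mul g⁻¹ g, inv_mul_cancel, coe_one, Matrix.mul_one]
    refine (QuotientGroup.eq.mpr ?_).symm
    rw [Gamma0_mem, ZMod.intCast_zmod_eq_zero_iff_dvd]
    refine ⟨(γf g' * (γf g)⁻¹) 1 0, ?_⟩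
    have h3 : (g'⁻¹ * g) 1 0 = (γf g' * (γf g)⁻¹) 1 0 * (N : ℤ) := by
      simpa [levelMat, Matrix.mul_apply, Fin.sum_univ_two] using congr_fun₂ h2 1 0
    rw [h3, mul_comm]
  · obtain ⟨⟨a, b⟩, ht⟩ := t
    obtain ⟨ha, hb, hg⟩ := mem_heckePairs.mp ht
    dsimp only at ha hb hg
    have : NeZero a := ⟨ne_zero_of_dvd_ne_zero (NeZero.ne N) ha⟩
    obtain ⟨k, hk⟩ := exists_add_mul_isCoprime (N := a) (x := (b : ℤ)) (m := ((N / a : ℕ) : ℤ))
      (fun p pp hpa hpe hpb => pp.one_lt.ne' (Nat.dvd_one.mp (hg ▸ Nat.dvd_gcd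
        (Nat.dvd_gcd hpa (Int.natCast_dvd_natCast.mp hpb)) (Int.natCast_dvd_natCast.mp hpe))))
    obtain ⟨x, hx0, hx1⟩ := hk.symm.exists_SL2_row 1
    refine ⟨mk N x⁻¹, Subtype.ext ((hFmk _).trans ?_)⟩
    have hN : (N : ℤ) = (a : ℤ) * (N / a : ℕ) := by
      rw [← Nat.cast_mul, Nat.mul_div_cancel' ha]
    have hdet := x.2
    rw [Matrix.det_fin_two, hx0, hx1] at hdet
    let γ : SL(2, ℤ) := ⟨!![((N / a : ℕ) : ℤ) * x 0 0, (a : ℤ) * x 0 1 - x 0 0 * b; 1, k],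
      by rw [Matrix.det_fin_two_of]; linear_combination hdet⟩
    have h1 : levelMat N * (x : Matrix (Fin 2) (Fin 2) ℤ) =
        (γ : Matrix (Fin 2) (Fin 2) ℤ) * heckeMat N (a, b) := by
      ext i j
      fin_cases i <;> fin_cases j <;>
        simp [levelMat, heckeMat, γ, Matrix.mul_apply, Fin.sum_univ_two, -Int.natCast_ediv]
      · linear_combination x 0 0 * hN
      · linear_combination x 0 1 * hN
      · linear_combination hx0
      · linear_combination hx1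
    have h2 := hf x⁻¹
    rw [inv_inv, h1] at h2
    exact reduction_unique (hfmem _) ht h2.symm

/-- The bijection `SL(2, ℤ) ⧸ Γ₀(N) ≃ heckePairs N`. -/
noncomputable def heckeEquiv [NeZero N] : Coset N ≃ heckePairs N :=
  exists_heckeEquiv.choose

theorem heckeEquiv_spec [NeZero N] (g : SL(2, ℤ)) : ∃ γ : SL(2, ℤ),
    levelMat N * ((g⁻¹ : SL(2, ℤ)) : Matrix (Fin 2) (Fin 2) ℤ) =
      (γ : Matrix (Fin 2) (Fin 2) ℤ) * heckeMat N (heckeEquiv (mk N g)).1 :=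
  exists_heckeEquiv.choose_spec g

/-- Right multiplication permutes the representatives via the action on cosets. -/
theorem heckeMat_mul_SL [NeZero N] (σ : SL(2, ℤ)) (q : Coset N) : ∃ γ : SL(2, ℤ),
    heckeMat N (heckeEquiv q).1 * (σ : Matrix (Fin 2) (Fin 2) ℤ) =
      (γ : Matrix (Fin 2) (Fin 2) ℤ) * heckeMat N (heckeEquiv (σ⁻¹ • q)).1 := by
  obtain ⟨g, rfl⟩ := mk_surjective q
  obtain ⟨γ₀, h₀⟩ := heckeEquiv_spec (N := N) g
  obtain ⟨γ₁, h₁⟩ := heckeEquiv_spec (N := N) (σ⁻¹ * g)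
  refine ⟨γ₀⁻¹ * γ₁, ?_⟩
  have hq : σ⁻¹ • mk N g = mk N (σ⁻¹ * g) := rfl
  have e1 : ((γ₀⁻¹ : SL(2, ℤ)) : Matrix (Fin 2) (Fin 2) ℤ) *
      (levelMat N * ((g⁻¹ : SL(2, ℤ)) : Matrix (Fin 2) (Fin 2) ℤ)) =
        heckeMat N (heckeEquiv (mk N g)).1 := by
    rw [h₀, ← Matrix.mul_assoc, ← coe_mul, inv_mul_cancel, coe_one, Matrix.one_mul]
  rw [hq, coe_mul, Matrix.mul_assoc (γ₀⁻¹ : SL(2, ℤ)).1, ← h₁, ← e1,
    _root_.mul_inv_rev, inv_inv, coe_mul g⁻¹]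
  simp only [Matrix.mul_assoc]

theorem card_heckePairs [NeZero N] : (heckePairs N).card = dedekindPsi N := by
  rw [← Nat.card_eq_finsetCard, ← Nat.card_congr heckeEquiv, card_coset]

end Fermat.Agent.Gamma0
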