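/-
Cosets of `Γ₀(N)` fixed by the elliptic elements `S` (order 2) and `S * T`, `T * S` (order 3).
-/
import Fermat.Prelude.Def_ModularCurve_GenusNumerics
import Fermat.Agent.Gamma0.Basic
import Fermat.Agent.Gamma0.Orbits
import Mathlib.Data.ZMod.Units

set_option autoImplicit false

namespace Fermat.Agent.Gamma0

open Matrix Matrix.SpecialLinearGroup CongruenceSubgroup ModularCurve
open scoped MatrixGroups
open ModularGroup (S T)

variable {N : ℕ}

theorem S_pow_two : S ^ 2 = (-1 : SL(2, ℤ)) := by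
  ext i j
  fin_cases i <;> fin_cases j <;>
    simp [pow_succ, Matrix.mul_apply, Fin.sum_univ_two, ModularGroup.coe_S, ModularGroup.coe_T]

theorem ST_pow_three : (S * T) ^ 3 = (-1 : SL(2, ℤ)) := by
  ext i j
  fin_cases i <;> fin_cases j <;>
    simp [pow_succ, Matrix.mul_apply, Fin.sum_univ_two, ModularGroup.coe_S, ModularGroup.coe_T]

theorem TS_pow_three : (T * S) ^ 3 = (-1 : SL(2, ℤ)) := by
  ext i j
  fin_cases i <;> fin_cases j <;>
    simp [pow_succ, Matrix.mul_apply, Fin.sum_univ_two, ModularGroup.coe_S, ModularGroup.coe_T]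

theorem S_smul_S_smul (q : Coset N) : S • S • q = q := by
  rw [← mul_smul, ← pow_two, S_pow_two, neg_one_smul]

theorem ST_smul_ST_smul_ST_smul (q : Coset N) : (S * T) • (S * T) • (S * T) • q = q := by
  rw [← mul_smul, ← mul_smul, ← pow_two, ← pow_succ, ST_pow_three, neg_one_smul]

theorem TS_smul_TS_smul_TS_smul (q : Coset N) : (T * S) • (T * S) • (T * S) • q = q := by
  rw [← mul_smul, ← mul_smul, ← pow_two, ← pow_succ, TS_pow_three, neg_one_smul]

theorem S_smul_mk_eq_iff {g : SL(2, ℤ)} :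
    S • mk N g = mk N g ↔ (N : ℤ) ∣ g 0 0 ^ 2 + g 1 0 ^ 2 := by
  rw [MulAction.Quotient.smul_coe, smul_eq_mul, mk_eq_mk_iff, ← dvd_neg]
  simp [ModularGroup.coe_S, Matrix.mul_apply, Fin.sum_univ_two]
  ring_nf

theorem ST_smul_mk_eq_iff {g : SL(2, ℤ)} :
    (S * T) • mk N g = mk N g ↔ (N : ℤ) ∣ g 0 0 ^ 2 + g 0 0 * g 1 0 + g 1 0 ^ 2 := by
  rw [MulAction.Quotient.smul_coe, smul_eq_mul, mk_eq_mk_iff, ← dvd_neg]
  simp [ModularGroup.coe_S, ModularGroup.coe_T, Matrix.mul_apply, Fin.sum_univ_two]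
  ring_nf

theorem TS_smul_mk_eq_iff {g : SL(2, ℤ)} :
    (T * S) • mk N g = mk N g ↔ (N : ℤ) ∣ g 0 0 ^ 2 - g 0 0 * g 1 0 + g 1 0 ^ 2 := by
  rw [MulAction.Quotient.smul_coe, smul_eq_mul, mk_eq_mk_iff, ← dvd_neg]
  simp [ModularGroup.coe_S, ModularGroup.coe_T, Matrix.mul_apply, Fin.sum_univ_two]
  ring_nf

/-- Cosets fixed by an element whose fixed-point condition is `a² + r a c + c² = 0` correspond
to the roots of `x² + r x + 1` modulo `N`. -/
theorem card_fixed_quadratic [NeZero N] (σ : SL(2, ℤ)) (r : ℤ)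
    (hσ : ∀ g : SL(2, ℤ),
      σ • mk N g = mk N g ↔ (N : ℤ) ∣ g 0 0 ^ 2 + r * g 0 0 * g 1 0 + g 1 0 ^ 2) :
    Nat.card {q : Coset N // σ • q = q} =
      Nat.card {x : ZMod N // x ^ 2 + (r : ZMod N) * x + 1 = 0} := by
  have hcol : ∀ h : ℤ, (T ^ h * S) 0 0 = h ∧ (T ^ h * S) 1 0 = 1 := fun h => by
    simp [ModularGroup.coe_T_zpow, ModularGroup.coe_S, Matrix.mul_apply, Fin.sum_univ_two]
  have hmem : ∀ x : {x : ZMod N // x ^ 2 + (r : ZMod N) * x + 1 = 0},
      σ • mk N (T ^ (x.1.val : ℤ) * S) = mk N (T ^ (x.1.val : ℤ) * S) := fun x => by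
    rw [hσ, (hcol _).1, (hcol _).2, ← ZMod.intCast_zmod_eq_zero_iff_dvd]
    simpa using x.2
  let f : {x : ZMod N // x ^ 2 + (r : ZMod N) * x + 1 = 0} → {q : Coset N // σ • q = q} :=
    fun x => ⟨mk N (T ^ (x.1.val : ℤ) * S), hmem x⟩
  refine (Nat.card_eq_of_bijective f ⟨?_, ?_⟩).symm
  · intro x y hxy
    have h := congrArg Subtype.val hxy
    rw [mk_eq_mk_iff, (hcol _).1, (hcol _).2, (hcol _).1, (hcol _).2,
      ← ZMod.intCast_zmod_eq_zero_iff_dvd] at h
    exact Subtype.ext (sub_eq_zero.mp (by simpa using h))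
  · intro q
    obtain ⟨g, hg⟩ := mk_surjective q.1
    have hfix : (N : ℤ) ∣ g 0 0 ^ 2 + r * g 0 0 * g 1 0 + g 1 0 ^ 2 :=
      (hσ g).mp (by rw [hg]; exact q.2)
    have hcop : IsCoprime (g 1 0) (N : ℤ) := by
      rw [Int.isCoprime_iff_gcd_eq_one, Int.gcd_def, Int.natAbs_natCast]
      refine Nat.coprime_of_dvd fun p pp hp hpN => ?_
      rw [← Int.natCast_dvd] at hp
      have hpp : Prime (p : ℤ) := Int.prime_iff_natAbs_prime.2 (by simpa using pp)
      have h1 : (p : ℤ) ∣ g 0 0 ^ 2 + g 1 0 * (r * g 0 0 + g 1 0) :=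
        (Int.natCast_dvd_natCast.mpr hpN).trans (hfix.trans (dvd_of_eq (by ring)))
      have h2 : (p : ℤ) ∣ g 0 0 := hpp.dvd_of_dvd_pow ((dvd_add_left (hp.mul_right _)).mp h1)
      exact hpp.not_isUnit ((isCoprime_col g 0).isUnit_of_dvd' h2 hp)
    let x : ZMod N := (g 0 0 : ZMod N) * (g 1 0 : ZMod N)⁻¹
    have hinv : (g 1 0 : ZMod N) * (g 1 0 : ZMod N)⁻¹ = 1 := ZMod.coe_int_mul_inv_eq_one hcop
    have hzero : (g 0 0 : ZMod N) ^ 2 + (r : ZMod N) * (g 0 0 : ZMod N) * (g 1 0 : ZMod N) +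
        (g 1 0 : ZMod N) ^ 2 = 0 := by
      have := (ZMod.intCast_zmod_eq_zero_iff_dvd _ _).mpr hfix
      push_cast at this
      exact this
    have hx : x ^ 2 + (r : ZMod N) * x + 1 = 0 := by
      linear_combination (norm := (simp only [x]; ring)) ((g 1 0 : ZMod N)⁻¹) ^ 2 * hzero -
        ((r : ZMod N) * x + (g 1 0 : ZMod N) * (g 1 0 : ZMod N)⁻¹ + 1) * hinv
    refine ⟨⟨x, hx⟩, Subtype.ext ?_⟩
    rw [← hg]
    change mk N _ = mk N g
    rw [mk_eq_mk_iff, (hcol _).1, (hcol _).2, ← ZMod.intCast_zmod_eq_zero_iff_dvd]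
    push_cast
    rw [ZMod.natCast_zmod_val]
    linear_combination (norm := (simp only [x]; ring)) (g 0 0 : ZMod N) * hinv

variable (N)

theorem card_fixed_S [NeZero N] :
    Nat.card {q : Coset N // S • q = q} = nuTwo N := by
  rw [card_fixed_quadratic S 0 (fun g => by simpa using S_smul_mk_eq_iff), nuTwo]
  exact Nat.card_congr (Equiv.subtypeEquivRight fun x => by simp)

theorem card_fixed_ST [NeZero N] :
    Nat.card {q : Coset N // (S * T) • q = q} = nuThree N := by
  rw [card_fixed_quadratic (S * T) 1 (fun g => by simpa using ST_smul_mk_eq_iff), nuThree]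
  exact Nat.card_congr (Equiv.subtypeEquivRight fun x => by simp)

theorem card_fixed_TS [NeZero N] :
    Nat.card {q : Coset N // (T * S) • q = q} = nuThree N := by
  rw [card_fixed_quadratic (T * S) (-1)
    (fun g => by simpa [sub_eq_add_neg] using TS_smul_mk_eq_iff), nuThree]
  exact Nat.card_congr ((Equiv.neg _).subtypeEquiv fun x => by simp)

/-- Twice the number of `S`-orbits. -/
theorem two_mul_card_orbits_S [NeZero N] :
    2 * Nat.card (MulAction.orbitRel.Quotient (Subgroup.zpowers S) (Coset N)) =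
      Nat.card (Coset N) + nuTwo N := by
  have h := prime_mul_card_orbits (α := Coset N) S Nat.prime_two
    (fun x => by rw [S_pow_two, neg_one_smul])
  rw [card_fixed_S] at h
  exact h.trans (by simp)

/-- Three times the number of `S * T`-orbits. -/
theorem three_mul_card_orbits_ST [NeZero N] :
    3 * Nat.card (MulAction.orbitRel.Quotient (Subgroup.zpowers (S * T)) (Coset N)) =
      Nat.card (Coset N) + 2 * nuThree N := by
  have h := prime_mul_card_orbits (α := Coset N) (S * T) Nat.prime_three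
    (fun x => by rw [ST_pow_three, neg_one_smul])
  rw [card_fixed_ST] at h
  exact h

/-- Three times the number of `T * S`-orbits. -/
theorem three_mul_card_orbits_TS [NeZero N] :
    3 * Nat.card (MulAction.orbitRel.Quotient (Subgroup.zpowers (T * S)) (Coset N)) =
      Nat.card (Coset N) + 2 * nuThree N := by
  have h := prime_mul_card_orbits (α := Coset N) (T * S) Nat.prime_three
    (fun x => by rw [TS_pow_three, neg_one_smul])
  rw [card_fixed_TS] at h
  exact h

end Fermat.Agent.Gamma0
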